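import Fermat.Agent.S59.Arch.SpecRT
import Fermat.Prelude.Def_WeierstrassCurve_PeuRamifiee

/-!
# Row S59 — cell LO, leaf LO-GLUE (helper934)

`levelOpt_of : LoSqStatement → S38Statement → S39Statement → FlatPeuStatement →
    ResUnramStatement → ResFlatStatement → Arch.LevelOptStatement`.

Inputs (all `Prop`s, stated here):

* `S38Statement`, `S39Statement` : the frozen statements S38, S39, verbatim (feed
  `Fermat.Agent.S38.result`, `Fermat.Agent.S39.result`);
* `LoSqStatement`      (leaf LO-SQ) : removal of a square `q² ∥ M`, `q ≠ p`;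
* `FlatPeuStatement`   : `E[p]` flat at `p` ⇒ `p ∣ v_p(Δ)` (the Prelude's `IsPeuRamifieeAt`);
* `ResUnramStatement`  : residually modular of squarefree level `M` ⇒ `E[p]` unramified at the
  primes `q ∤ p M` (residual consequence of S31);
* `ResFlatStatement`   : residually modular of squarefree level `M`, `p ∤ M` ⇒ `E[p]` flat at `p`
  (residual consequence of S32).

Proof.  `M₀ →` squarefree `M₁` (LO-SQ, induction) `→ M₂ ∣ M₁` all of whose prime divisors `≠ p`
are ramified for `E[p]` (S38, induction) `→` remove `p` if `E[p]` is flat (S39 + flat ⇒ peu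
ramifié); the prime divisors of the result are exactly those of `wilesLevel p t Smin Smin`
(ResUnram for `⊇`, ResFlat for `p` when `E[p]` is not flat), and both are squarefree.
-/

set_option autoImplicit false

open scoped WeierstrassCurve.Affine

namespace Fermat.Agent.S59.H934

open Fermat.Agent.S59.Arch

/-! ## The inputs -/

/-- Frozen S38, verbatim. -/
def S38Statement : Prop :=
  ∀ (p : ℕ) [Fact p.Prime] (_hp2 : p ≠ 2) (W : WeierstrassCurve ℤ) (_hΔ : W.Δ ≠ 0)
    (_hW : W.IsSemistableModel)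
    (hcard₁ : Nat.card (Submodule.torsionBy ℤ
      ((W.map (Int.castRingHom ℚ))⁄(AlgebraicClosure ℚ)).Point p) = p ^ 2)
    (hker : GaloisFactorsThroughFiniteLevel
      (WeierstrassCurve.Affine.Point.galoisRepModuleEnd (K := AlgebraicClosure ℚ) ℚ
        (W.map (Int.castRingHom ℚ)) p))
    (_hirr : W.ModRepIsIrreducible p) (M q : ℕ) (_hq : q.Prime) (_hqp : q ≠ p)
    (_hqM : q ∣ M) (_hq2 : ¬ q ^ 2 ∣ M) (_hM : Squarefree M)
    (_hunr : ((W.map (Int.castRingHom ℚ)).residualGaloisRepOf p hcard₁ hker).IsUnramifiedAt q)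
    (_hres : W.IsResiduallyModularOfLevel p M),
    W.IsResiduallyModularOfLevel p (M / q)

/-- Frozen S39, verbatim. -/
def S39Statement : Prop :=
  ∀ (W : WeierstrassCurve ℤ) (_hΔ : W.Δ ≠ 0) {p : ℕ} (_hp : p.Prime) (_hp2 : p ≠ 2)
    (_hsemi : (p : ℤ) ∣ W.Δ → ¬ (p : ℤ) ∣ W.c₄)
    (_hirr : W.ModRepIsIrreducible p)
    (_hfin : (W.map (Int.castRingHom ℚ)).IsPeuRamifieeAt p p)
    {M : ℕ} (_hM : 0 < M) (_hpM : p ∣ M) (_hp2M : ¬ p ^ 2 ∣ M)
    (_hmod : W.IsResiduallyModularOfLevel p M),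
    W.IsResiduallyModularOfLevel p (M / p)

/-- (LO-SQ) removal of a square `q² ∥ M`, `q ≠ p`, from the level. -/
def LoSqStatement : Prop :=
  ∀ (p : ℕ) [Fact p.Prime] (_hp : p = 3 ∨ p = 5)
    (W : WeierstrassCurve ℤ) (_hΔ : W.Δ ≠ 0) (_hW : W.IsSemistableModel)
    (_hirr : W.ModRepIsIrreducible p)
    (M q : ℕ) (_hM : M ≠ 0) (_hpM : ¬ p ^ 2 ∣ M)
    (_hM3 : ∀ r : ℕ, r.Prime → r ≠ p → ¬ r ^ 3 ∣ M)
    (_hq : q.Prime) (_hqp : q ≠ p) (_hq2 : q ^ 2 ∣ M)
    (_hres : W.IsResiduallyModularOfLevel p M),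
    W.IsResiduallyModularOfLevel p (M / q)

/-- (flat ⇒ peu ramifié) if `E[p]` is flat at `p` then `p ∣ v_p(Δ)`. -/
def FlatPeuStatement : Prop :=
  ∀ (p : ℕ) [Fact p.Prime] (_hp : p = 3 ∨ p = 5)
    (W : WeierstrassCurve ℤ) (_hΔ : W.Δ ≠ 0) (_hW : W.IsSemistableModel)
    (_hirr : W.ModRepIsIrreducible p)
    (hcard : Nat.card (Submodule.torsionBy ℤ
      ((W.map (Int.castRingHom ℚ))⁄(AlgebraicClosure ℚ)).Point p) = p ^ 2)
    (hker : GaloisFactorsThroughFiniteLevel
      (WeierstrassCurve.Affine.Point.galoisRepModuleEnd (K := AlgebraicClosure ℚ) ℚ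
        (W.map (Int.castRingHom ℚ)) p))
    (_hflat : (GaloisRepAdic.ofResidualGaloisRep
      ((W.map (Int.castRingHom ℚ)).residualGaloisRepOf p hcard hker)).IsFlatAt p),
    (W.map (Int.castRingHom ℚ)).IsPeuRamifieeAt p p

/-- (residual S31) if `W` is residually modular of squarefree level `M`, then `E[p]` is
unramified at every prime `q ∤ p M`. -/
def ResUnramStatement : Prop :=
  ∀ (p : ℕ) [Fact p.Prime] (_hp : p = 3 ∨ p = 5)
    (W : WeierstrassCurve ℤ) (_hΔ : W.Δ ≠ 0) (_hW : W.IsSemistableModel)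
    (_hirr : W.ModRepIsIrreducible p)
    (hcard : Nat.card (Submodule.torsionBy ℤ
      ((W.map (Int.castRingHom ℚ))⁄(AlgebraicClosure ℚ)).Point p) = p ^ 2)
    (hker : GaloisFactorsThroughFiniteLevel
      (WeierstrassCurve.Affine.Point.galoisRepModuleEnd (K := AlgebraicClosure ℚ) ℚ
        (W.map (Int.castRingHom ℚ)) p))
    (M : ℕ) (_hM : Squarefree M) (_hres : W.IsResiduallyModularOfLevel p M)
    (q : ℕ) (_hq : q.Prime) (_hqp : q ≠ p) (_hqM : ¬ q ∣ M),
    ((W.map (Int.castRingHom ℚ)).residualGaloisRepOf p hcard hker).IsUnramifiedAt q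

/-- (residual S32) if `W` is residually modular of squarefree level `M` prime to `p`, then `E[p]`
is flat at `p`. -/
def ResFlatStatement : Prop :=
  ∀ (p : ℕ) [Fact p.Prime] (_hp : p = 3 ∨ p = 5)
    (W : WeierstrassCurve ℤ) (_hΔ : W.Δ ≠ 0) (_hW : W.IsSemistableModel)
    (_hirr : W.ModRepIsIrreducible p)
    (hcard : Nat.card (Submodule.torsionBy ℤ
      ((W.map (Int.castRingHom ℚ))⁄(AlgebraicClosure ℚ)).Point p) = p ^ 2)
    (hker : GaloisFactorsThroughFiniteLevel
      (WeierstrassCurve.Affine.Point.galoisRepModuleEnd (K := AlgebraicClosure ℚ) ℚ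
        (W.map (Int.castRingHom ℚ)) p))
    (M : ℕ) (_hM : Squarefree M) (_hres : W.IsResiduallyModularOfLevel p M)
    (_hpM : ¬ p ∣ M),
    (GaloisRepAdic.ofResidualGaloisRep
      ((W.map (Int.castRingHom ℚ)).residualGaloisRepOf p hcard hker)).IsFlatAt p

/-! ## Arithmetic of squarefree levels -/

/-- A squarefree number is the product of any finite set of primes which is its set of prime
divisors. -/
theorem eq_prod_of_primeDivisors {M : ℕ} (hM : Squarefree M) (T : Finset ℕ)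
    (hT : ∀ q : ℕ, q ∈ T ↔ q.Prime ∧ q ∣ M) : M = ∏ q ∈ T, q := by
  have hM0 : M ≠ 0 := hM.ne_zero
  have hTeq : T = M.primeFactors := by
    ext q
    rw [hT q, Nat.mem_primeFactors]
    exact ⟨fun h => ⟨h.1, h.2, hM0⟩, fun h => ⟨h.1, h.2.1⟩⟩
  rw [hTeq]
  exact (Nat.prod_primeFactors_of_squarefree hM).symm

theorem div_ne_zero_of_dvd {M q : ℕ} (hM : M ≠ 0) (hq : q ∣ M) : M / q ≠ 0 := by
  obtain ⟨c, rfl⟩ := hq
  have hq0 : q ≠ 0 := fun h => hM (by rw [h, zero_mul])
  have hc0 : c ≠ 0 := fun h => hM (by rw [h, mul_zero])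
  rw [Nat.mul_div_cancel_left c (Nat.pos_of_ne_zero hq0)]
  exact hc0

theorem div_lt_of_prime_dvd {M q : ℕ} (hM : M ≠ 0) (hq : q.Prime) : M / q < M :=
  Nat.div_lt_self (Nat.pos_of_ne_zero hM) hq.one_lt

/-- In a squarefree number, `q ∤ M / q`. -/
theorem not_dvd_div_of_squarefree {M q : ℕ} (hM : Squarefree M) (hq : q.Prime) (hqM : q ∣ M) :
    ¬ q ∣ M / q := by
  intro h
  obtain ⟨c, hc⟩ := hqM
  have hq0 : 0 < q := hq.pos
  rw [hc, Nat.mul_div_cancel_left c hq0] at h
  obtain ⟨d, rfl⟩ := h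
  have h2 : q * q ∣ M := ⟨d, by rw [hc, mul_assoc]⟩
  exact hq.not_isUnit (hM q h2)

theorem wilesLevel_flat (p : ℕ) (Smin : Finset ℕ) :
    wilesLevel p .flat Smin Smin = ∏ q ∈ Smin.erase p, q := by
  unfold wilesLevel
  rw [sdiff_self, Finset.bot_eq_empty, Finset.prod_empty, mul_one, mul_one]

theorem wilesLevel_sord (p : ℕ) (Smin : Finset ℕ) :
    wilesLevel p .sord Smin Smin = (∏ q ∈ Smin.erase p, q) * p := by
  unfold wilesLevel
  rw [sdiff_self, Finset.bot_eq_empty, Finset.prod_empty, mul_one]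

/-! ## The glue -/

section Glue

variable (p : ℕ) [Fact p.Prime] (W : WeierstrassCurve ℤ)

/-- Step A: removal of all squares. -/
theorem exists_squarefree_level (hSQ : LoSqStatement) (hp : p = 3 ∨ p = 5) (hΔ : W.Δ ≠ 0)
    (hW : W.IsSemistableModel) (hirr : W.ModRepIsIrreducible p) :
    ∀ M : ℕ, M ≠ 0 → ¬ p ^ 2 ∣ M → (∀ r : ℕ, r.Prime → r ≠ p → ¬ r ^ 3 ∣ M) →
      W.IsResiduallyModularOfLevel p M →
      ∃ M₁ : ℕ, Squarefree M₁ ∧ W.IsResiduallyModularOfLevel p M₁ := by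
  intro M
  induction M using Nat.strong_induction_on with
  | _ M ih =>
    intro hM hpM hM3 hres
    by_cases hsq : Squarefree M
    · exact ⟨M, hsq, hres⟩
    · rw [Nat.squarefree_iff_prime_squarefree, not_forall] at hsq
      obtain ⟨q, hsq'⟩ := hsq
      rw [Classical.not_imp, not_not] at hsq'
      obtain ⟨hq, hqq⟩ := hsq'
      have hq2 : q ^ 2 ∣ M := by rwa [pow_two]
      have hqp : q ≠ p := by
        rintro rfl
        exact hpM hq2
      have hres' := hSQ p hp W hΔ hW hirr M q hM hpM hM3 hq hqp hq2 hres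
      have hqM : q ∣ M := dvd_trans (dvd_pow_self q two_ne_zero) hq2
      have hdiv : M / q ∣ M := Nat.div_dvd_of_dvd hqM
      exact ih (M / q) (div_lt_of_prime_dvd hM hq) (div_ne_zero_of_dvd hM hqM)
        (fun h => hpM (h.trans hdiv)) (fun r hr hrp h => hM3 r hr hrp (h.trans hdiv)) hres'

variable
    (hcard : Nat.card (Submodule.torsionBy ℤ
      ((W.map (Int.castRingHom ℚ))⁄(AlgebraicClosure ℚ)).Point p) = p ^ 2)
    (hker : GaloisFactorsThroughFiniteLevel
      (WeierstrassCurve.Affine.Point.galoisRepModuleEnd (K := AlgebraicClosure ℚ) ℚ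
        (W.map (Int.castRingHom ℚ)) p))

/-- Step B: removal of the primes `q ≠ p` at which `E[p]` is unramified. -/
theorem exists_ramified_level (h38 : S38Statement) (hp2 : p ≠ 2) (hΔ : W.Δ ≠ 0)
    (hW : W.IsSemistableModel) (hirr : W.ModRepIsIrreducible p) :
    ∀ M : ℕ, Squarefree M → W.IsResiduallyModularOfLevel p M →
      ∃ M₂ : ℕ, Squarefree M₂ ∧ W.IsResiduallyModularOfLevel p M₂ ∧
        ∀ q : ℕ, q.Prime → q ∣ M₂ → q ≠ p →
          ¬ ((W.map (Int.castRingHom ℚ)).residualGaloisRepOf p hcard hker).IsUnramifiedAt q := by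
  intro M
  induction M using Nat.strong_induction_on with
  | _ M ih =>
    intro hsq hres
    by_cases h : ∃ q : ℕ, q.Prime ∧ q ∣ M ∧ q ≠ p ∧
        ((W.map (Int.castRingHom ℚ)).residualGaloisRepOf p hcard hker).IsUnramifiedAt q
    · obtain ⟨q, hq, hqM, hqp, hunr⟩ := h
      have hq2 : ¬ q ^ 2 ∣ M := by
        intro h2
        rw [pow_two] at h2
        exact hq.not_isUnit (hsq q h2)
      have hres' := h38 p hp2 W hΔ hW hcard hker hirr M q hq hqp hqM hq2 hsq hunr hres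
      have hdiv : M / q ∣ M := Nat.div_dvd_of_dvd hqM
      exact ih (M / q) (div_lt_of_prime_dvd hsq.ne_zero hq) (hsq.squarefree_of_dvd hdiv) hres'
    · exact ⟨M, hsq, hres, fun q hq hqM hqp hunr => h ⟨q, hq, hqM, hqp, hunr⟩⟩

end Glue

/-- **LO-GLUE.** -/
theorem levelOpt_of (hSQ : LoSqStatement) (h38 : S38Statement) (h39 : S39Statement)
    (hFP : FlatPeuStatement) (hU : ResUnramStatement) (hF : ResFlatStatement) :
    LevelOptStatement := by
  intro p _ hp W hΔ hW hirr M₀ _ hres₀ hM₀ hM₀3 hcard hker Smin hSmin t ht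
  have hpp : p.Prime := Fact.out
  have hp2 : p ≠ 2 := by
    rcases hp with h | h <;> omega
  obtain ⟨hpS, hSprime, hSram⟩ := hSmin
  -- Step A
  obtain ⟨M₁, hsq₁, hres₁⟩ := exists_squarefree_level p W hSQ hp hΔ hW hirr M₀
    (NeZero.ne M₀) hM₀ hM₀3 hres₀
  -- Step B
  obtain ⟨M₂, hsq₂, hres₂, hram₂⟩ := exists_ramified_level p W hcard hker h38 hp2 hΔ hW hirr
    M₁ hsq₁ hres₁
  -- the level
  rcases ht with ⟨rfl, hflat⟩ | ⟨rfl, hnflat⟩
  · -- flat: remove `p` if necessary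
    have key : ∃ M₃ : ℕ, Squarefree M₃ ∧ W.IsResiduallyModularOfLevel p M₃ ∧ ¬ p ∣ M₃ ∧
        ∀ q : ℕ, q.Prime → q ∣ M₃ → q ≠ p →
          ¬ ((W.map (Int.castRingHom ℚ)).residualGaloisRepOf p hcard hker).IsUnramifiedAt q := by
      by_cases hpM : p ∣ M₂
      · have hp2M : ¬ p ^ 2 ∣ M₂ := by
          intro h2
          rw [pow_two] at h2
          exact hpp.not_isUnit (hsq₂ p h2)
        have hres₃ := h39 W hΔ hpp hp2 (hW p hpp) hirr
          (hFP p hp W hΔ hW hirr hcard hker hflat) (Nat.pos_of_ne_zero hsq₂.ne_zero) hpM hp2M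
          hres₂
        have hdiv : M₂ / p ∣ M₂ := Nat.div_dvd_of_dvd hpM
        exact ⟨M₂ / p, hsq₂.squarefree_of_dvd hdiv, hres₃,
          not_dvd_div_of_squarefree hsq₂ hpp hpM,
          fun q hq hqM hqp => hram₂ q hq (hqM.trans hdiv) hqp⟩
      · exact ⟨M₂, hsq₂, hres₂, hpM, hram₂⟩
    obtain ⟨M₃, hsq₃, hres₃, hpM₃, hram₃⟩ := key
    have hM₃ : M₃ = ∏ q ∈ Smin.erase p, q := by
      apply eq_prod_of_primeDivisors hsq₃
      intro q
      rw [Finset.mem_erase]
      constructor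
      · rintro ⟨hqp, hqS⟩
        have hq : q.Prime := hSprime q hqS
        refine ⟨hq, ?_⟩
        by_contra hqM
        exact (hSram q hq hqp).1 hqS (hU p hp W hΔ hW hirr hcard hker M₃ hsq₃ hres₃ q hq hqp hqM)
      · rintro ⟨hq, hqM⟩
        have hqp : q ≠ p := by
          rintro rfl
          exact hpM₃ hqM
        exact ⟨hqp, (hSram q hq hqp).2 (hram₃ q hq hqM hqp)⟩
    rw [wilesLevel_flat, ← hM₃]
    exact hres₃
  · -- strictly ordinary, not flat: `p` divides the level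
    have hpM : p ∣ M₂ := by
      by_contra hpM
      exact hnflat (hF p hp W hΔ hW hirr hcard hker M₂ hsq₂ hres₂ hpM)
    have hM₂ : M₂ = ∏ q ∈ Smin, q := by
      apply eq_prod_of_primeDivisors hsq₂
      intro q
      constructor
      · intro hqS
        have hq : q.Prime := hSprime q hqS
        refine ⟨hq, ?_⟩
        by_cases hqp : q = p
        · rw [hqp]
          exact hpM
        · by_contra hqM
          exact (hSram q hq hqp).1 hqS
            (hU p hp W hΔ hW hirr hcard hker M₂ hsq₂ hres₂ q hq hqp hqM)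
      · rintro ⟨hq, hqM⟩
        by_cases hqp : q = p
        · rw [hqp]
          exact hpS
        · exact (hSram q hq hqp).2 (hram₂ q hq hqM hqp)
    have hprod : (∏ q ∈ Smin.erase p, q) * p = ∏ q ∈ Smin, q :=
      Finset.prod_erase_mul Smin (fun q => q) hpS
    rw [wilesLevel_sord, hprod, ← hM₂]
    exact hres₂

end Fermat.Agent.S59.H934
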